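/-
T1B / cell AD (ALG-DESCENT), brick AD-2 (i) (helper78): DENSITY of a number field in its completion.

`p` prime, `ι := padicEmbedding p : ℚ̄ → ℚ̄_p`, `A := padicPlace p`, `L ⊂ ℚ̄` an intermediate field,
`E := LocInj13.localField p L = ℚ_p(ι L) ⊂ ℚ̄_p` (finite over `ℚ_p` when `L/ℚ` is finite:
`LocInj13.finiteDimensional_localField`; every finite `E' ⊂ ℚ̄_p` lies in such an `E`:
`LocInj13.exists_le_localField` = AD-2 (ii), Krasner).

* `dense`            : `∀ y ∈ E, ∀ ε > 0, ∃ x ∈ L, ‖y - ι x‖ < ε` (the closure of the subfield `ι L` is a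
                       subfield containing `ℚ_p`);
* `psi p L : AK A L →+* intSubring p E`, `r ↦ ι r`; injective, local (`isUnit_of_psi`), compatible with
  `K ≤ L` (`psi_inclusion`);
* `exists_int_approx`: `∀ y ∈ 𝒪_E, ∀ ε > 0, ∃ r : AK A L, ‖y - ι r‖ < ε`;
* **`approx`**       : `π ≠ 0 → ∀ n (y : 𝒪_E), ∃ r s, y = psi r + psi π ^ n * s`            [(S1) at DVR level]
* **`sat`**          : `π ≠ 0 → psi r ∈ span {psi π ^ n} → r ∈ span {π ^ n}`                [(S2) at DVR level]
* `residue_surj`     : `∀ y : 𝒪_E, ∃ r, ‖y - psi r‖ < 1`                                  [(D2)]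
* `exists_norm_eq`   : `∀ y ∈ E, y ≠ 0 → ∃ x ∈ L, ‖ι x‖ = ‖y‖`                            [value groups agree]
* `psi_dvd_of_norm_lt_one` : `𝔪_{AK A L} = (π) → ∀ y : 𝒪_E, ‖y‖ < 1 → psi π ∣ y`          [(D1)]
-/
import Mathlib
import Fermat.Agent.PT.BR.LocInj13
import Fermat.Agent.T1.LocModel46.NumField

set_option autoImplicit false

open Fermat.Agent.TW.B5.Iface
open Fermat.Agent.RED.Interface4 Fermat.Agent.RED.DESC.NumberFieldDVR27
open Fermat.Agent.T1.LocModel46 Fermat.Agent.PT.BR.LocInj13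

namespace Fermat.Agent.T1B.AD78.Density

local notation "Qbar" => AlgebraicClosure ℚ

variable (p : ℕ) [Fact p.Prime] (L : IntermediateField ℚ Qbar)

/-! ### Density -/

/-- The subfield `ι(L)` of `ℚ̄_p`. -/
noncomputable def imageSubfield : Subfield (Kbar p) :=
  L.toSubfield.map ((padicEmbedding p : Qbar →ₐ[ℚ] Kbar p) : Qbar →+* Kbar p)

theorem mem_imageSubfield {y : Kbar p} :
    y ∈ imageSubfield p L ↔ ∃ x ∈ L, padicEmbedding p x = y := by
  unfold imageSubfield
  rw [Subfield.mem_map]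
  rfl

theorem algebraMap_mem_closure (c : ℚ_[p]) :
    algebraMap ℚ_[p] (Kbar p) c ∈ (imageSubfield p L).topologicalClosure := by
  show algebraMap ℚ_[p] (Kbar p) c ∈ closure ((imageSubfield p L : Subfield (Kbar p)) : Set (Kbar p))
  rw [Metric.mem_closure_iff]
  intro ε hε
  obtain ⟨r, hr⟩ := Padic.rat_dense p c hε
  refine ⟨((r : ℚ) : Kbar p), ?_, ?_⟩
  · rw [SetLike.mem_coe, mem_imageSubfield]
    exact ⟨((r : ℚ) : Qbar), by
      have : ((r : ℚ) : Qbar) = algebraMap ℚ Qbar r := by simp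
      rw [this]; exact L.algebraMap_mem r, map_ratCast _ r⟩
  · rw [dist_eq_norm]
    have h1 : ((r : ℚ) : Kbar p) = algebraMap ℚ_[p] (Kbar p) ((r : ℚ) : ℚ_[p]) :=
      (map_ratCast (algebraMap ℚ_[p] (Kbar p)) r).symm
    rw [h1, ← map_sub]
    rw [show ‖algebraMap ℚ_[p] (Kbar p) (c - (r : ℚ_[p]))‖ = ‖c - (r : ℚ_[p])‖ from
      PadicAlgCl.norm_extends p _]
    exact hr

/-- The closure of `ι(L)`, as an intermediate field of `ℚ̄_p/ℚ_p`. -/
noncomputable def closureField : IntermediateField ℚ_[p] (Kbar p) :=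
  Subfield.toIntermediateField (imageSubfield p L).topologicalClosure (algebraMap_mem_closure p L)

theorem localField_le_closureField : localField p L ≤ closureField p L := by
  unfold localField
  rw [IntermediateField.adjoin_le_iff]
  rintro _ ⟨x, hx, rfl⟩
  show padicEmbedding p x ∈ (imageSubfield p L).topologicalClosure
  exact Subfield.le_topologicalClosure _ ((mem_imageSubfield p L).2 ⟨x, hx, rfl⟩)

/-- **Density of `ι(L)` in `ℚ_p(ι L)`.** -/
theorem dense {y : Kbar p} (hy : y ∈ localField p L) {ε : ℝ} (hε : 0 < ε) :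
    ∃ x ∈ L, ‖y - padicEmbedding p x‖ < ε := by
  have h1 : y ∈ closure ((imageSubfield p L : Subfield (Kbar p)) : Set (Kbar p)) :=
    localField_le_closureField p L hy
  rw [Metric.mem_closure_iff] at h1
  obtain ⟨b, hb, hyb⟩ := h1 ε hε
  rw [SetLike.mem_coe, mem_imageSubfield] at hb
  obtain ⟨x, hx, rfl⟩ := hb
  exact ⟨x, hx, by rwa [dist_eq_norm] at hyb⟩

/-! ### The comparison map `ψ : A ∩ L → 𝒪_E` -/

theorem iota_mem_intSubring (r : AK (padicPlace p) L) :
    padicEmbedding p ((r : L) : Qbar) ∈ intSubring p (localField p L) :=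
  ⟨padicEmbedding_mem_localField p (r : L).2, norm_iota_AK_le_one p L r⟩

/-- `ψ : A ∩ L → 𝒪_E`, `r ↦ ι r`. -/
noncomputable def psi : AK (padicPlace p) L →+* intSubring p (localField p L) where
  toFun r := ⟨padicEmbedding p ((r : L) : Qbar), iota_mem_intSubring p L r⟩
  map_one' := Subtype.ext (map_one (padicEmbedding p))
  map_mul' _ _ := Subtype.ext (map_mul (padicEmbedding p) _ _)
  map_zero' := Subtype.ext (map_zero (padicEmbedding p))
  map_add' _ _ := Subtype.ext (map_add (padicEmbedding p) _ _)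

@[simp]
theorem coe_psi (r : AK (padicPlace p) L) :
    ((psi p L r : intSubring p (localField p L)) : Kbar p) = padicEmbedding p ((r : L) : Qbar) :=
  rfl

theorem psi_injective : Function.Injective (psi p L) := by
  intro a b hab
  have h1 : padicEmbedding p ((a : L) : Qbar) = padicEmbedding p ((b : L) : Qbar) := by
    have := congrArg (fun z : intSubring p (localField p L) => (z : Kbar p)) hab
    exact this
  exact Subtype.ext (Subtype.ext (iota_injective p h1))

/-- membership in `A ∩ L` from the norm. -/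
theorem mem_AK_of_norm_le {x : Qbar} (hx : x ∈ L) (h : ‖padicEmbedding p x‖ ≤ 1) :
    (⟨x, hx⟩ : L) ∈ AK (padicPlace p) L := by
  rw [mem_AK_iff, mem_place_iff_norm]
  exact h

/-- `ψ` is a local homomorphism. -/
theorem isUnit_of_psi {r : AK (padicPlace p) L} (h : IsUnit (psi p L r)) : IsUnit r := by
  obtain ⟨s, hs⟩ := h.exists_right_inv
  have h1 : padicEmbedding p ((r : L) : Qbar) * (s : Kbar p) = 1 := by
    have := congrArg (fun z : intSubring p (localField p L) => (z : Kbar p)) hs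
    exact this
  have hr0 : (r : L) ≠ 0 := by
    intro h0
    rw [h0] at h1
    simp at h1
  have hsn : ‖(s : Kbar p)‖ ≤ 1 := s.2.2
  have hrn : ‖padicEmbedding p ((r : L) : Qbar)‖ ≤ 1 := norm_iota_AK_le_one p L r
  have hmul : ‖padicEmbedding p ((r : L) : Qbar)‖ * ‖(s : Kbar p)‖ = 1 := by
    rw [← norm_mul, h1, norm_one]
  have hr1 : ‖padicEmbedding p ((r : L) : Qbar)‖ = 1 := by
    by_contra hne
    have hlt : ‖padicEmbedding p ((r : L) : Qbar)‖ < 1 := lt_of_le_of_ne hrn hne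
    have : ‖padicEmbedding p ((r : L) : Qbar)‖ * ‖(s : Kbar p)‖ < 1 := by
      calc ‖padicEmbedding p ((r : L) : Qbar)‖ * ‖(s : Kbar p)‖
          ≤ ‖padicEmbedding p ((r : L) : Qbar)‖ * 1 :=
            mul_le_mul_of_nonneg_left hsn (norm_nonneg _)
        _ < 1 := by rwa [mul_one]
    exact absurd hmul this.ne
  have hinv : ((r : L)⁻¹ : L) ∈ AK (padicPlace p) L := by
    rw [mem_AK_iff, mem_place_iff_norm]
    have : (((r : L)⁻¹ : L) : Qbar) = ((r : L) : Qbar)⁻¹ := by push_cast; rfl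
    rw [this, map_inv₀, norm_inv, hr1, inv_one]
  refine IsUnit.of_mul_eq_one (⟨(r : L)⁻¹, hinv⟩ : AK (padicPlace p) L) ?_
  apply Subtype.ext
  show (r : L) * (r : L)⁻¹ = 1
  exact mul_inv_cancel₀ hr0

/-- the inclusion `A ∩ K ⊆ A ∩ L` for `K ≤ L`. -/
theorem inclusion_mem_AK {K : IntermediateField ℚ Qbar} (h : K ≤ L) (r : AK (padicPlace p) K) :
    IntermediateField.inclusion h (r : K) ∈ AK (padicPlace p) L := by
  have h1 : ((r : K) : Qbar) ∈ padicPlace p := (mem_AK_iff _ _ _).1 r.2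
  exact (mem_AK_iff _ _ _).2 h1

/-- compatibility with an inclusion `K ≤ L`. -/
theorem psi_inclusion {K : IntermediateField ℚ Qbar} (h : K ≤ L) (r : AK (padicPlace p) K) :
    ((psi p L ⟨IntermediateField.inclusion h (r : K), inclusion_mem_AK p L h r⟩ :
        intSubring p (localField p L)) : Kbar p) =
      ((psi p K r : intSubring p (localField p K)) : Kbar p) := by
  rw [coe_psi, coe_psi]
  rfl

/-! ### Approximation -/

/-- integral elements of `E` are approximated by elements of `A ∩ L`. -/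
theorem exists_int_approx {y : Kbar p} (hy : y ∈ intSubring p (localField p L)) {ε : ℝ}
    (hε : 0 < ε) : ∃ r : AK (padicPlace p) L, ‖y - padicEmbedding p ((r : L) : Qbar)‖ < ε := by
  obtain ⟨x, hx, hxy⟩ := dense p L hy.1 (lt_min hε one_pos)
  have hx1 : ‖padicEmbedding p x‖ ≤ 1 := by
    have h1 : padicEmbedding p x = y - (y - padicEmbedding p x) := by ring
    rw [h1]
    calc ‖y - (y - padicEmbedding p x)‖ ≤ max ‖y‖ ‖y - padicEmbedding p x‖ := by
          have := PadicAlgCl.isNonarchimedean p y (-(y - padicEmbedding p x))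
          rwa [norm_neg, ← sub_eq_add_neg] at this
      _ ≤ 1 := max_le hy.2 ((hxy.trans_le (min_le_right _ _)).le)
  exact ⟨⟨⟨x, hx⟩, mem_AK_of_norm_le p L hx hx1⟩, hxy.trans_le (min_le_left _ _)⟩

/-- (D2): the residue field map is surjective. -/
theorem residue_surj (y : intSubring p (localField p L)) :
    ∃ r : AK (padicPlace p) L, ‖(y : Kbar p) - ((psi p L r : intSubring p (localField p L)) : Kbar p)‖ < 1 :=
  exists_int_approx p L y.2 one_pos

theorem psi_ne_zero {π : AK (padicPlace p) L} (hπ : π ≠ 0) :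
    ((psi p L π : intSubring p (localField p L)) : Kbar p) ≠ 0 := by
  intro h
  apply hπ
  apply psi_injective p L
  rw [map_zero]
  exact Subtype.ext h

/-- **(S1) at DVR level**: `𝒪_E = ψ(A ∩ L) + ψ(π)ⁿ 𝒪_E`. -/
theorem approx {π : AK (padicPlace p) L} (hπ : π ≠ 0) (n : ℕ)
    (y : intSubring p (localField p L)) :
    ∃ (r : AK (padicPlace p) L) (s : intSubring p (localField p L)),
      y = psi p L r + psi p L π ^ n * s := by
  set ϖ : Kbar p := ((psi p L π : intSubring p (localField p L)) : Kbar p) with hϖ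
  have hϖ0 : ϖ ≠ 0 := psi_ne_zero p L hπ
  have hpos : 0 < ‖ϖ‖ ^ n := pow_pos (norm_pos_iff.2 hϖ0) n
  obtain ⟨r, hr⟩ := exists_int_approx p L y.2 hpos
  have hmemE : ((y : Kbar p) - padicEmbedding p ((r : L) : Qbar)) / ϖ ^ n ∈ localField p L :=
    (localField p L).div_mem
      ((localField p L).sub_mem y.2.1 (padicEmbedding_mem_localField p (r : L).2))
      (pow_mem (padicEmbedding_mem_localField p (π : L).2) n)
  have hnorm : ‖((y : Kbar p) - padicEmbedding p ((r : L) : Qbar)) / ϖ ^ n‖ ≤ 1 := by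
    rw [norm_div, norm_pow, div_le_one hpos]
    exact hr.le
  refine ⟨r, ⟨_, hmemE, hnorm⟩, ?_⟩
  apply Subtype.ext
  show (y : Kbar p) = padicEmbedding p ((r : L) : Qbar) +
    ϖ ^ n * (((y : Kbar p) - padicEmbedding p ((r : L) : Qbar)) / ϖ ^ n)
  rw [mul_div_cancel₀ _ (pow_ne_zero n hϖ0)]
  ring

/-- **(S2) at DVR level**: `ψ(r) ∈ ψ(π)ⁿ 𝒪_E ⟹ r ∈ πⁿ (A ∩ L)`. -/
theorem sat {π : AK (padicPlace p) L} (hπ : π ≠ 0) (n : ℕ) (r : AK (padicPlace p) L)
    (h : psi p L r ∈ Ideal.span {psi p L π ^ n}) : r ∈ Ideal.span {π ^ n} := by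
  rw [Ideal.mem_span_singleton'] at h ⊢
  obtain ⟨s, hs⟩ := h
  have hs' : (s : Kbar p) * padicEmbedding p ((π : L) : Qbar) ^ n =
      padicEmbedding p ((r : L) : Qbar) := by
    have := congrArg (fun z : intSubring p (localField p L) => (z : Kbar p)) hs
    exact this
  have hπL : (π : L) ≠ 0 := fun h0 => hπ (Subtype.ext h0)
  have hπQ : ((π : L) : Qbar) ≠ 0 := fun h0 => hπL (Subtype.ext h0)
  have hϖ0 : padicEmbedding p ((π : L) : Qbar) ≠ 0 := fun h0 =>
    hπQ (iota_injective p (by rw [h0, map_zero]))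
  set d : L := (r : L) / (π : L) ^ n with hd
  have hdQ : (d : Qbar) = ((r : L) : Qbar) / ((π : L) : Qbar) ^ n := by
    rw [hd]; push_cast; rfl
  have hds : padicEmbedding p (d : Qbar) = (s : Kbar p) := by
    rw [hdQ, map_div₀, map_pow, ← hs', mul_div_assoc, div_self (pow_ne_zero n hϖ0), mul_one]
  have hdA : d ∈ AK (padicPlace p) L := by
    rw [mem_AK_iff, mem_place_iff_norm, hds]
    exact s.2.2
  refine ⟨⟨d, hdA⟩, ?_⟩
  apply Subtype.ext
  show d * (π : L) ^ n = (r : L)
  rw [hd, div_mul_cancel₀ _ (pow_ne_zero n hπL)]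

/-! ### Value groups and uniformisers -/

/-- the value group of `E` is the value group of `ι(L)`. -/
theorem exists_norm_eq {y : Kbar p} (hy : y ∈ localField p L) (hy0 : y ≠ 0) :
    ∃ x ∈ L, ‖padicEmbedding p x‖ = ‖y‖ ∧ ‖y - padicEmbedding p x‖ < ‖y‖ := by
  obtain ⟨x, hx, hxy⟩ := dense p L hy (norm_pos_iff.2 hy0)
  refine ⟨x, hx, ?_, hxy⟩
  have h1 : padicEmbedding p x = y + -(y - padicEmbedding p x) := by ring
  have hu : IsUltrametricDist (Kbar p) := inferInstance
  rw [h1]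
  apply IsUltrametricDist.norm_add_eq_max_of_norm_ne_norm ?_ |>.trans
  · rw [norm_neg]; exact max_eq_left hxy.le
  · rw [norm_neg]; exact hxy.ne'

/-- **(D1)**: a uniformiser of `A ∩ L` generates the maximal ideal `{‖y‖ < 1}` of `𝒪_E`. -/
theorem psi_dvd_of_norm_lt_one {π : AK (padicPlace p) L}
    (hπ : IsLocalRing.maximalIdeal (AK (padicPlace p) L) = Ideal.span {π})
    (hπ0 : π ≠ 0)
    (y : intSubring p (localField p L)) (hy : ‖(y : Kbar p)‖ < 1) : psi p L π ∣ y := by
  set ϖ : Kbar p := ((psi p L π : intSubring p (localField p L)) : Kbar p) with hϖ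
  have hϖ0 : ϖ ≠ 0 := psi_ne_zero p L hπ0
  have hle : ‖(y : Kbar p)‖ ≤ ‖ϖ‖ := by
    by_cases hy0 : (y : Kbar p) = 0
    · rw [hy0, norm_zero]; exact norm_nonneg _
    obtain ⟨x, hx, hxn, -⟩ := exists_norm_eq p L y.2.1 hy0
    have hxA : (⟨x, hx⟩ : L) ∈ AK (padicPlace p) L :=
      mem_AK_of_norm_le p L hx (by rw [hxn]; exact hy.le)
    have hxm : (⟨⟨x, hx⟩, hxA⟩ : AK (padicPlace p) L) ∈
        IsLocalRing.maximalIdeal (AK (padicPlace p) L) := by
      rw [mem_maximalIdeal_AK_iff]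
      show ‖padicEmbedding p x‖ < 1
      rw [hxn]; exact hy
    rw [hπ, Ideal.mem_span_singleton'] at hxm
    obtain ⟨c, hc⟩ := hxm
    have hc' : padicEmbedding p ((c : L) : Qbar) * padicEmbedding p ((π : L) : Qbar) =
        padicEmbedding p x := by
      rw [← map_mul]
      congr 1
      have := congrArg (fun z : AK (padicPlace p) L => ((z : L) : Qbar)) hc
      exact this
    rw [← hxn, ← hc', norm_mul]
    calc ‖padicEmbedding p ((c : L) : Qbar)‖ * ‖padicEmbedding p ((π : L) : Qbar)‖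
        ≤ 1 * ‖padicEmbedding p ((π : L) : Qbar)‖ :=
          mul_le_mul_of_nonneg_right (norm_iota_AK_le_one p L c) (norm_nonneg _)
      _ = ‖ϖ‖ := by rw [one_mul]; rfl
  have hmemE : (y : Kbar p) / ϖ ∈ localField p L :=
    (localField p L).div_mem y.2.1 (padicEmbedding_mem_localField p (π : L).2)
  have hnorm : ‖(y : Kbar p) / ϖ‖ ≤ 1 := by
    rw [norm_div, div_le_one (norm_pos_iff.2 hϖ0)]
    exact hle
  refine ⟨⟨_, hmemE, hnorm⟩, ?_⟩
  apply Subtype.ext
  show (y : Kbar p) = ϖ * ((y : Kbar p) / ϖ)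
  rw [mul_div_cancel₀ _ hϖ0]

end Fermat.Agent.T1B.AD78.Density
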