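/-
T1B / cell AD, brick AD-2 (i) (helper78): the density facts of `AD78/Density` in the vocabulary of
`Local66/LocalBase` + `AD69/Concrete` (helper66 / helper69): `Wb p L`, `toO h`, `EL p L`, `isLevel_EL`.

* `toO_eq_psi`   : `toO (isLevel_EL p L) = psi p L`;
* `happrox_EL`, `hsat_EL` : the hypotheses `happrox`, `hsat` of `AD69.Concrete.setting_concrete(_of)`,
  `AD74.GlueHub.exists_glue_hub`, `AD21.Tensor.setting_tensor` at `E := EL p L`, for ANY `π ≠ 0`;
* `setting_concrete_EL` : `AD69.Concrete.setting_concrete` with both hypotheses discharged.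
-/
import Mathlib
import Fermat.Agent.T1B.AD78.Density
import Fermat.Agent.T1B.AD69.Concrete

set_option autoImplicit false
set_option linter.unusedSectionVars false
set_option linter.style.haveILetI false

noncomputable section

namespace Fermat.Agent.T1B.AD78.Bridge69

open HahnSeries ModularCurve TensorProduct
open Fermat.Agent.TW.B5.Iface Fermat.Agent.RED.Interface4 Fermat.Agent.T1.HubInst98
open Fermat.Agent.T1B.Local66.LocalBase
open Fermat.Agent.T1B.InjLaurent69 Fermat.Agent.T1B.AD21
open Fermat.Agent.T1B.AD69 Fermat.Agent.T1B.AD69.Concrete Fermat.Agent.T1B.AD78.Density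

variable (p : ℕ) [Fact p.Prime] (L : IntermediateField ℚ Qbar)

theorem toO_eq_psi : toO (isLevel_EL p L) = psi p L :=
  RingHom.ext fun _ => Subtype.ext rfl

/-- `happrox` at `E := EL p L` in the `toO` vocabulary. -/
theorem happrox_EL {π : Wb p L} (hπ : π ≠ 0) (n : ℕ) (x : ↥(intSubring p (EL p L))) :
    ∃ (r : Wb p L) (s : ↥(intSubring p (EL p L))),
      x = toO (isLevel_EL p L) r + toO (isLevel_EL p L) π ^ n * s := by
  rw [toO_eq_psi]
  exact approx p L hπ n x

/-- `hsat` at `E := EL p L` in the `toO` vocabulary. -/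
theorem hsat_EL {π : Wb p L} (hπ : π ≠ 0) (n : ℕ) (r : Wb p L)
    (h : toO (isLevel_EL p L) r ∈ Ideal.span {toO (isLevel_EL p L) π ^ n}) :
    r ∈ Ideal.span {π ^ n} := by
  rw [toO_eq_psi] at h
  exact sat p L hπ n r h

/-- **`AD69.Concrete.setting_concrete` at `E := EL p L`, unconditional** (any `0 ≠ π ∈ A ∩ L`). -/
theorem setting_concrete_EL {K : IntermediateField ℚ Qbar} (hKL : K ≤ L)
    {B : Type*} [CommRing B] [Algebra (Wb p K) B]
    (e : B →+* LaurentSeries ↥K)
    (he : ∀ w : Wb p K, e (algebraMap (Wb p K) B w) = HahnSeries.C (algebraMap (Wb p K) ↥K w))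
    [Module.Flat (Wb p K) B] (hinj : Function.Injective e)
    {π : Wb p L} (hπ : π ≠ 0) :
    letI := algAK (padicPlace p) hKL
    letI := algKL hKL
    letI := algAKL (padicPlace p) hKL
    haveI := isScalarTower_AK (padicPlace p) hKL
    haveI := isScalarTower_AK_K (padicPlace p) hKL
    letI := algWO (isLevel_of_le hKL (isLevel_EL p L))
    letI := algWE (isLevel_of_le hKL (isLevel_EL p L))
    letI := algOE (EL p L)
    letI := algKE (isLevel_of_le hKL (isLevel_EL p L))
    letI := algKE (isLevel_EL p L)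
    haveI := tower_W_O_E (isLevel_of_le hKL (isLevel_EL p L))
    haveI : IsScalarTower (Wb p K) ↥K ↥(EL p L) := IsScalarTower.of_algebraMap_eq' rfl
    letI := algLaurent (Ω := ↥L) (Oh := Wb p L) e he
    letI := algLaurent (Ω := ↥(EL p L)) (Oh := ↥(intSubring p (EL p L))) e he
    Frames.Setting
      (Tensor.tmap B (psiAlg hKL (isLevel_EL p L)) :
        Wb p L ⊗[Wb p K] B →+* ↥(intSubring p (EL p L)) ⊗[Wb p K] B)
      (coeffMap (algebraMap ↥L ↥(EL p L))) (π ⊗ₜ[Wb p K] (1 : B)) :=
  setting_concrete hKL (isLevel_EL p L) e he hinj hπ (happrox_EL p L hπ) (hsat_EL p L hπ)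

end Fermat.Agent.T1B.AD78.Bridge69
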