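/-
T1B / cell AD, brick AD-2 (ii) (helper78): KRASNER wrappers on top of `PT/BR/LocInj13.exists_le_localField`.

Every finite `E ⊂ ℚ̄_p` lies in `E_F = ℚ_p(ι F)` for a number field `F ⊂ ℚ̄` which can be taken
* containing a prescribed number field `K` (`exists_le_localField_ge`), and moreover
* normal over `ℚ` (`exists_le_localField_normal`).
-/
import Mathlib
import Fermat.Agent.PT.BR.LocInj13

set_option autoImplicit false
set_option linter.style.haveILetI false

namespace Fermat.Agent.T1B.AD78.Krasner

open Fermat.Agent.PT.BR.LocInj13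

local notation "Qbar" => AlgebraicClosure ℚ

variable (p : ℕ) [Fact p.Prime]

/-- Krasner, with a prescribed subfield. -/
theorem exists_le_localField_ge (E : IntermediateField ℚ_[p] (PadicAlgCl p))
    [FiniteDimensional ℚ_[p] E] (K : IntermediateField ℚ Qbar) [FiniteDimensional ℚ K] :
    ∃ F : IntermediateField ℚ Qbar, FiniteDimensional ℚ F ∧ K ≤ F ∧ E ≤ localField p F := by
  obtain ⟨F, hF, hEF⟩ := exists_le_localField p E
  haveI := hF
  exact ⟨K ⊔ F, IntermediateField.finiteDimensional_sup K F, le_sup_left,
    hEF.trans (localField_mono p le_sup_right)⟩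

/-- Krasner, with a prescribed subfield and a NORMAL number field. -/
theorem exists_le_localField_normal (E : IntermediateField ℚ_[p] (PadicAlgCl p))
    [FiniteDimensional ℚ_[p] E] (K : IntermediateField ℚ Qbar) [FiniteDimensional ℚ K] :
    ∃ F : IntermediateField ℚ Qbar, FiniteDimensional ℚ F ∧ Normal ℚ F ∧ K ≤ F ∧
      E ≤ localField p F := by
  obtain ⟨F, hF, hKF, hEF⟩ := exists_le_localField_ge p E K
  haveI := hF
  haveI : Algebra.IsAlgebraic ℚ Qbar := AlgebraicClosure.isAlgebraic ℚ
  haveI : IsAlgClosure ℚ Qbar := ⟨inferInstance, inferInstance⟩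
  haveI : Normal ℚ Qbar := IsAlgClosure.normal ℚ Qbar
  have h1 : Normal ℚ (IntermediateField.normalClosure ℚ F Qbar) := normalClosure.normal ℚ F Qbar
  have h2 : FiniteDimensional ℚ (IntermediateField.normalClosure ℚ F Qbar) :=
    normalClosure.is_finiteDimensional ℚ F Qbar
  exact ⟨IntermediateField.normalClosure ℚ F Qbar, h2, h1,
    hKF.trans (IntermediateField.le_normalClosure F),
    hEF.trans (localField_mono p (IntermediateField.le_normalClosure F))⟩

end Fermat.Agent.T1B.AD78.Krasner
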